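import Mathlib
import Fermat.Agent.LT.T7.H732.SupplyQFamSpec
import Fermat.Agent.LT.T7.H570.KillUp

/-!
# Row LT, tower T7, node T7.L2Q.1.F, LEAF T7.L2Q.1.F4 `KillUpQC732` (helper419)

OFF-MAIN.  `killUpQC419 F : H732.KillUpQC732 F` VERBATIM (`T7/H732/SupplyQFamSpec.lean` of
helper732, sha256 7e4f04b4), UNCONDITIONAL.

Proof.  The mirror of `H570.killUpC570` (helper570): the class `H570.Kills570 μ ψ` of the
continuous functions `φ` with compact support and `R(φ) ψ = 0` is stable under `lsum`, `regL`
(`H570.kills_lsum570`, `H570.kills_regL570`), the second base function upstairs is in the class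
by `up2_kill`, and `R(Φ₁ X ⋆ φ) ψ = R(Φ₁ X) (R(φ) ψ) = 0` (`H570.Rconv_conv_kills570`, which
rests on `T5.H277.Rconv_Rconv277` of helper277).  Only the fields upstairs of the pre-data and
the frame upstairs of the common part are used.
-/

set_option autoImplicit false

open AutomorphicForm IsDedekindDomain NumberField MeasureTheory
open scoped ComplexConjugate

noncomputable section

namespace Fermat.Agent.LT.T7.H419

open Fermat.Agent.LT.H556 Fermat.Agent.LT.H556.A0 Fermat.Agent.LT.T7 Fermat.Agent.LT.T7.L2Q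
  Fermat.Agent.LT.T7.H893 Fermat.Agent.LT.T7.H962 Fermat.Agent.LT.T7.H732
  Fermat.Agent.LT.T7.H570

attribute [local instance] Fermat.Agent.LT.T5.instMeasurableSpaceG

variable (F : Type) [Field F] [NumberField F]

/-- **LEAF T7.L2Q.1.F4 = KILL-UP over `F`**, VERBATIM. -/
theorem killUpQC419 : KillUpQC732 F := by
  intro Φ B hB g hg E hE X k m hX ψ hψ horth x
  have hF := hB.frame'.frame
  have := hF.haar
  have h2 : Kills570 B.R'.μ ψ E.φ₂ :=
    ⟨hE.up2_test.cont, hE.up2_test.supp, hE.up2_kill ψ hψ horth⟩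
  have h3 := kills_lsum570 hψ.cont E.Hg (kills_regL570 hψ.cont (B.o 0) E.z' E.H' k m h2)
  exact Rconv_conv_kills570 hF hψ.cont (hE.up1_test X hX).cont (hE.up1_test X hX).supp h3 x

end Fermat.Agent.LT.T7.H419

end
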